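/-
GATE-S (S33) / FRAME², file 1 (helper92): the ABSTRACT DISC FRAME — vocabulary pin.  Definitions
only.

The frame is FREE of the function fields of the special fibre: the special fibre enters only through
an abstract commutative `k`-algebra `Sp` (in the nodal instance `Ft₁ × Ft₂`), the reduction map
`red : B → Sp` on the global unit ball `B` (nodal instance: `ball2 = Rw₁ ⊓ Rw₂`, `red = red2`), an
abstract type `𝒬` of SMOOTH special points with their residue discs, an abstract predicate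
`IsParam Q t` ("`t` reduces to a uniformiser at `Q`"), and an abstract non-speciality predicate
`NS` on sets of special points (nodal instance: the glued `L`-space of `Σ Q` is the constants).

* `DiscData`   : the data.
* `Odisc Φ Q`  : functions of `B` without pole on the disc of `Q`.
* `CPt Φ Q`    : a chart point (centre + parameter) over `Q`.
* `Chart Φ n`  : `n` chart points over pairwise distinct special points forming a non-special set.
* `IsCoord`    : `ξ = [Σ P_i(τ_i) - D0]`.
* `redSpace Φ D` : `red (L(D) ∩ B)`, a `k`-subspace of `Sp`.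
* `DiscFacts Φ`  : the TEN facts (F1)–(F10) consumed by the generic layer (`GS/Frame/*`): values,
  parameters, Taylor, injectivity, one-disc divisor bookkeeping, off-disc bookkeeping, the constancy
  criterion, rank preservation, Riemann's inequality, rigidity.  Produced by the component layer
  (`GS/Frame/Local*` port of `GH/Disc`, `GH/L`, `GH/Add/DivBook` over ONE `RedData` + `(FF2)`) and by
  INST² (glued `L`-spaces).
* contracts `CoordUnique`, `CoordSmall`, `CoordInj`, `CoordExists`, `ChartSupply`, `AddSpec`.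

`ValueAt` is the one of `GH/Vocab.lean`, so `GH/Add/ValueAlg.lean` and `GH/Closure/Device.lean` are
reused as they are.
-/
import Mathlib
import Fermat.Agent.GH.Vocab

set_option autoImplicit false

noncomputable section

open AlgebraicCurve

namespace Fermat.Agent.GS.Frame

open Fermat.Agent.RRh45 Fermat.Agent.GH

open scoped Classical

/-- **The data of an abstract disc frame.** -/
structure DiscData (K F k Sp 𝒬 : Type*) [Field K] [Field F] [Algebra K F] [Field k]
    [CommRing Sp] [Algebra k Sp] where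
  /-- the valuation ring of the base field -/
  A : ValuationSubring K
  /-- the residue map of the base -/
  res : A →+* k
  res_surjective : Function.Surjective res
  res_eq_zero_iff : ∀ a : A, res a = 0 ↔ A.valuation (a : K) < 1
  /-- the global unit ball (Gauss-integral for ALL components of the special fibre) -/
  B : Subring F
  mem_A_iff : ∀ a : K, a ∈ A ↔ algebraMap K F a ∈ B
  /-- the reduction map to the function ring of the special fibre -/
  red : B →+* Sp
  red_algebraMap : ∀ a : A,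
    red ⟨algebraMap K F (a : K), (mem_A_iff a).1 a.2⟩ = algebraMap k Sp (res a)
  /-- the residue disc of a smooth special point -/
  disc : 𝒬 → Set (Place K F)
  disc_disjoint : ∀ {Q Q' : 𝒬}, Q ≠ Q' → ∀ P ∈ disc Q, P ∉ disc Q'
  /-- "`t` reduces to a uniformiser at `Q`" (and is a unit of `B`, ...): abstract. -/
  IsParam : 𝒬 → F → Prop
  /-- non-speciality of a set of special points: abstract. -/
  NS : Set 𝒬 → Prop
  /-- the genus (of the generic fibre = arithmetic genus of the special fibre). -/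
  g : ℤ

variable {K F k Sp 𝒬 : Type*} [Field K] [Field F] [Algebra K F] [Field k]
  [CommRing Sp] [Algebra k Sp]

/-- functions of the global unit ball without pole on the residue disc of `Q`. -/
def Odisc (Φ : DiscData K F k Sp 𝒬) (Q : 𝒬) : Set F :=
  {e | e ∈ Φ.B ∧ ∀ P ∈ Φ.disc Q, e ∈ P.toValuationSubring}

/-- A chart point over the special point `Q`: a centre `P` in the disc and a parameter `t` of the
global unit ball, without pole on the disc, vanishing at `P`, reducing to a uniformiser at `Q`. -/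
structure CPt (Φ : DiscData K F k Sp 𝒬) (Q : 𝒬) where
  P : Place K F
  hP : P ∈ Φ.disc Q
  t : F
  ht : t ∈ Odisc Φ Q
  ht0 : ValueAt P t 0
  hpar : Φ.IsParam Q t

/-- A chart with `n` points: pairwise distinct special points forming a non-special set, one chart
point over each. -/
structure Chart (Φ : DiscData K F k Sp 𝒬) (n : ℕ) where
  Q : Fin n → 𝒬
  hQ : Function.Injective Q
  pt : ∀ i, CPt Φ (Q i)
  hns : Φ.NS (Set.range Q)

namespace Chart

variable {Φ : DiscData K F k Sp 𝒬} {n : ℕ}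

/-- the base divisor `D0 = Σ P_i` of the chart. -/
def D0 (𝔠 : Chart Φ n) : Divisor K F := ∑ i, Finsupp.single (𝔠.pt i).P (1 : ℤ)

/-- the set of special points of the chart. -/
def supp (𝔠 : Chart Φ n) : Set 𝒬 := Set.range 𝔠.Q

end Chart

/-- `τ` are the coordinates of `ξ` in the chart `𝔠`. -/
def IsCoord {Φ : DiscData K F k Sp 𝒬} {n : ℕ} (𝔠 : Chart Φ n) (ξ : Pic0 K F) (τ : Fin n → K) :
    Prop :=
  ∃ Pτ : Fin n → Place K F, (∀ i, Pτ i ∈ Φ.disc (𝔠.Q i)) ∧
    (∀ i, ValueAt (Pτ i) (𝔠.pt i).t (τ i)) ∧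
    ∃ hdeg : (∑ i, Finsupp.single (Pτ i) (1 : ℤ)) - 𝔠.D0 ∈ Divisor.degZero (K := K) (F := F),
      Pic0.mk ⟨_, hdeg⟩ = ξ

/-- the reduction of the integral part of `L(D)`. -/
def redSpace (Φ : DiscData K F k Sp 𝒬) (D : Divisor K F) : Submodule k Sp where
  carrier := {xt | ∃ x : Φ.B, (x : F) ∈ riemannRochSpace D ∧ Φ.red x = xt}
  zero_mem' := ⟨0, by simp, map_zero _⟩
  add_mem' := by
    rintro _ _ ⟨x, hx, rfl⟩ ⟨y, hy, rfl⟩
    exact ⟨x + y, by simpa using add_mem hx hy, map_add _ _ _⟩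
  smul_mem' := by
    rintro c _ ⟨x, hx, rfl⟩
    obtain ⟨a, rfl⟩ := Φ.res_surjective c
    refine ⟨⟨algebraMap K F (a : K), (Φ.mem_A_iff a).1 a.2⟩ * x, ?_, ?_⟩
    · have := (riemannRochSpace D).smul_mem (a : K) hx
      rwa [Algebra.smul_def] at this
    · rw [map_mul, Φ.red_algebraMap, Algebra.smul_def]

theorem mem_redSpace {Φ : DiscData K F k Sp 𝒬} {D : Divisor K F} {xt : Sp} :
    xt ∈ redSpace Φ D ↔ ∃ x : Φ.B, (x : F) ∈ riemannRochSpace D ∧ Φ.red x = xt := Iff.rfl

/-- **The facts of an abstract disc frame** consumed by the generic layer. -/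
structure DiscFacts (Φ : DiscData K F k Sp 𝒬) : Prop where
  /-- all places of the generic fibre have degree one. -/
  degF : ∀ P : Place K F, P.deg = 1
  /-- the special fibre is not empty. -/
  sp_one_ne_zero : (1 : Sp) ≠ 0
  /-- (F1) values of disc-regular integral functions exist and are integral. -/
  exists_value : ∀ {Q : 𝒬} {e : F}, e ∈ Odisc Φ Q → ∀ P ∈ Φ.disc Q, ∃ a ∈ Φ.A, ValueAt P e a
  /-- (F2) the parameter of a chart point takes values in the maximal ideal on its disc. -/
  param_lt_one : ∀ {Q : 𝒬} (pt : CPt Φ Q), ∀ P ∈ Φ.disc Q, ∀ a : K,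
    ValueAt P pt.t a → Φ.A.valuation a < 1
  /-- (F3) Taylor expansion with remainder, evaluated on the disc. -/
  taylor : ∀ {Q : 𝒬} (pt : CPt Φ Q) {e : F}, e ∈ Odisc Φ Q → ∀ m : ℕ,
    ∃ γ : ℕ → K, (∀ i, γ i ∈ Φ.A) ∧ ∀ P ∈ Φ.disc Q, ∀ a b : K, ValueAt P pt.t a → ValueAt P e b →
      Φ.A.valuation (b - ∑ i ∈ Finset.range m, γ i * a ^ i) ≤ Φ.A.valuation a ^ m
  /-- (F4) a chart parameter separates the points of its disc. -/
  disc_inj : ∀ {Q : 𝒬} (pt : CPt Φ Q) (a : K) (P P' : Place K F), P ∈ Φ.disc Q → P' ∈ Φ.disc Q →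
    ValueAt P pt.t a → ValueAt P' pt.t a → P = P'
  /-- (F5) one disc with a chart point: `h ∈ B` with `red h = 1`, at most a simple pole at the
  centre and no other pole on the disc; then `t h` has a unique zero `Ps` on the disc and
  `div h = [Ps] - [centre]` on the disc. -/
  ord_on_chart_disc : ∀ {Q : 𝒬} (pt : CPt Φ Q) {h : F} (hB : h ∈ Φ.B), Φ.red ⟨h, hB⟩ = 1 →
    (∀ P ∈ Φ.disc Q, -(if P = pt.P then 1 else 0) ≤ P.ord h) →
    ∃ Ps ∈ Φ.disc Q, ValueAt Ps (pt.t * h) 0 ∧
      (∀ P' ∈ Φ.disc Q, ValueAt P' (pt.t * h) 0 → P' = Ps) ∧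
      ∀ P ∈ Φ.disc Q, P.ord h = (if P = Ps then 1 else 0) - (if P = pt.P then 1 else 0)
  /-- (F6) off the discs: `h ∈ B` with `red h = 1` and no pole off the discs of a finite set `S`
  of special points, on each of which `div h` has degree zero, has no zero off these discs
  (degree count: this is where the annuli are handled). -/
  ord_eq_zero_off : ∀ {h : F} (hB : h ∈ Φ.B), Φ.red ⟨h, hB⟩ = 1 → ∀ S : Finset 𝒬,
    (∀ P : Place K F, (∀ Q ∈ S, P ∉ Φ.disc Q) → 0 ≤ P.ord h) →
    ∀ P : Place K F, (∀ Q ∈ S, P ∉ Φ.disc Q) → P.ord h = 0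
  /-- (F7) the constancy criterion: an integral `e ∈ L(Σ centres + 𝔤.D0)` all of whose values
  `(t_i e)(X_i)`, at ARBITRARY points `X_i` of the discs, are small reduces to a constant. -/
  const_of_small : ∀ {ι : Type} [Fintype ι] {Qx : ι → 𝒬}, Function.Injective Qx →
    ∀ (pt : ∀ i, CPt Φ (Qx i)) {n : ℕ} (𝔤 : Chart Φ n), (∀ i j, Qx i ≠ 𝔤.Q j) →
    ∀ {e : F} (heB : e ∈ Φ.B),
      e ∈ riemannRochSpace ((∑ i, Finsupp.single (pt i).P (1 : ℤ)) + 𝔤.D0) →
    ∀ {X : ι → Place K F}, (∀ i, X i ∈ Φ.disc (Qx i)) → ∀ {b : ι → K},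
      (∀ i, ValueAt (X i) ((pt i).t * e) (b i)) → (∀ i, Φ.A.valuation (b i) < 1) →
      ∃ a : k, Φ.red ⟨e, heB⟩ = algebraMap k Sp a
  /-- (F8) rank preservation (orthonormal bases). -/
  finrank_redSpace : ∀ D : Divisor K F, 0 ≤ D → Module.Finite k (redSpace Φ D) ∧
    Module.finrank k (redSpace Φ D) = Module.finrank K (riemannRochSpace D)
  /-- (F9) Riemann's inequality on the generic fibre. -/
  riemann : ∀ D : Divisor K F,
    Divisor.degree D + 1 - Φ.g ≤ (Module.finrank K (riemannRochSpace D) : ℤ)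
  /-- (F10) rigidity: a sum of points, one in each disc of a non-special family, has `l = 1`. -/
  finrank_eq_one : ∀ {n : ℕ} (Q : Fin n → 𝒬), Function.Injective Q → Φ.NS (Set.range Q) →
    ∀ X : Fin n → Place K F, (∀ i, X i ∈ Φ.disc (Q i)) →
      Module.finrank K (riemannRochSpace (∑ i, Finsupp.single (X i) (1 : ℤ))) = 1

/-! ### contracts -/

variable (Φ : DiscData K F k Sp 𝒬) (n : ℕ)

/-- coordinates are unique. -/
def CoordUnique : Prop :=
  ∀ (𝔠 : Chart Φ n) (ξ : Pic0 K F) (τ τ' : Fin n → K), IsCoord 𝔠 ξ τ → IsCoord 𝔠 ξ τ' → τ = τ'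

/-- coordinates lie in the maximal ideal of `A`. -/
def CoordSmall : Prop :=
  ∀ (𝔠 : Chart Φ n) (ξ : Pic0 K F) (τ : Fin n → K), IsCoord 𝔠 ξ τ → ∀ i, Φ.A.valuation (τ i) < 1

/-- the class is determined by its coordinates. -/
def CoordInj : Prop :=
  ∀ (𝔠 : Chart Φ n) (ξ ξ' : Pic0 K F) (τ : Fin n → K), IsCoord 𝔠 ξ τ → IsCoord 𝔠 ξ' τ → ξ = ξ'

/-- every class of `𝒦` has coordinates in every chart (nodal instance: `𝒦 = M⁰₁`, node [KER]). -/
def CoordExists (𝒦 : Set (Pic0 K F)) : Prop :=
  ∀ (𝔠 : Chart Φ n), ∀ ξ ∈ 𝒦, ∃ τ, IsCoord 𝔠 ξ τ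

/-- charts exist off any finite set of special points. -/
def ChartSupply : Prop :=
  ∀ S : Finset 𝒬, ∃ 𝔠 : Chart Φ n, ∀ i, 𝔠.Q i ∉ S

/-- for three charts with pairwise disjoint supports, on any finite family of pairs of classes the
coordinates of the sum in the third chart lie in the `A`-algebra generated by the coordinates of
the summands. -/
def AddSpec : Prop :=
  ∀ (𝔞 𝔟 𝔠 : Chart Φ n), Disjoint 𝔞.supp 𝔟.supp → Disjoint 𝔞.supp 𝔠.supp → Disjoint 𝔟.supp 𝔠.supp →
    ∀ (Z : Type) [Finite Z] (ξ η : Z → Pic0 K F) (τ σ μ : Z → Fin n → K),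
      (∀ z, IsCoord 𝔞 (ξ z) (τ z)) → (∀ z, IsCoord 𝔟 (η z) (σ z)) →
      (∀ z, IsCoord 𝔠 (ξ z + η z) (μ z)) →
      ∀ j, (fun z => μ z j) ∈
        Algebra.adjoin Φ.A ({f : Z → K | ∃ i, f = fun z => τ z i} ∪ {f | ∃ i, f = fun z => σ z i})

end Fermat.Agent.GS.Frame
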