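/-
GATE-S (S33) / FRAME², file 2 (helper92): the LOCAL (one component) frame — vocabulary pin + the
unit calculus.  This is the frame over which `GH/Disc/Values`, `GH/Disc/Taylor`, `GH/L/ChartPt`
(first half), `GH/L/Inj`, `GH/Add/DivBook` (one-disc part) and `GH/Add/DiscCalcOfV` are PORTED.

`R : RedData K F k Ft` is ONE component of the special fibre (its Gauss valuation ring `R.Rw` and
its function field `Ft`).  `Φ : FibreHyp R` carries

* the GLOBAL unit ball `Φ.B ≤ R.Rw` (smooth frame: `B = R.Rw`; nodal frame: `B = Rw₁ ⊓ Rw₂`) and its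
  radical `Φ.rad` (nodal frame: `rad2`);
* the set `Φ.good` of SMOOTH points of the component and the PARTIAL place reduction `Φ.rOf`;
* the fibre formula **(FF2)** (helper75 5053): for a UNIT `y` of `B` (`y, y⁻¹ ∈ B`: on the nodal frame
  both reductions are nonzero) and a good `Q`: `ord_Q (red y) = Σ_{P ↦ Q} ord_P y`.

PORTING RULE: `H : LSpaceHyp R g c ↦ Φ : FibreHyp R`; `rOf H P = Q ↦ Φ.rOf P = some Q`;
`e ∈ R.Rw` in `Odisc ↦ e ∈ Φ.B`; every hypothesis `R.red y ≠ 0` under which the fibre formula is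
used `↦ IsU Φ y`; `red h = 1 ↦ h - 1 ∈ Φ.rad`; special places `Q` carry `hQ : Q ∈ Φ.good`.
A chart parameter `t` must satisfy `hU`: `t - a` is a unit of `B` for EVERY `a ∈ R.A` (smooth frame:
automatic; nodal frame: the reductions of `t` on the other components are non-constant).
-/
import Mathlib
import Fermat.Agent.GH.Vocab
import Fermat.Agent.S24.PlaceBasic

set_option autoImplicit false

noncomputable section

open AlgebraicCurve

namespace Fermat.Agent.GS.Frame.Local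

open Fermat.Agent.RRh45 Fermat.Agent.GJ.J1 Fermat.Agent.S24 Fermat.Agent.GH

open scoped Classical

variable {K F k Ft : Type*} [Field K] [Field F] [Algebra K F] [Field k] [Field Ft] [Algebra k Ft]

/-- **The hypotheses of the local frame** on one component `R` of the special fibre. -/
structure FibreHyp (R : RedData K F k Ft) where
  /-- all places of the generic fibre have degree one. -/
  degF : ∀ P : Place K F, P.deg = 1
  /-- the global unit ball. -/
  B : Subring F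
  B_le : ∀ x ∈ B, x ∈ R.Rw
  const_mem_B : ∀ a ∈ R.A, algebraMap K F a ∈ B
  /-- the radical of the global unit ball. -/
  rad : Set F
  rad_sub_B : ∀ z ∈ rad, z ∈ B
  rad_red : ∀ z (hz : z ∈ rad), R.red ⟨z, B_le z (rad_sub_B z hz)⟩ = 0
  rad_add : ∀ z ∈ rad, ∀ z' ∈ rad, z + z' ∈ rad
  rad_mul : ∀ b ∈ B, ∀ z ∈ rad, b * z ∈ rad
  rad_const : ∀ a : K, R.A.valuation a < 1 → algebraMap K F a ∈ rad
  rad_unit : ∀ z ∈ rad, (1 + z)⁻¹ ∈ B
  /-- the smooth points of the component. -/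
  good : Set (Place k Ft)
  /-- the partial place reduction (defined on the discs of the smooth points). -/
  rOf : Place K F → Option (Place k Ft)
  /-- **(FF2)** the fibre formula for units of `B` at smooth points. -/
  fibre : ∀ (y : F) (hy : y ∈ B), y⁻¹ ∈ B → ∀ Dy : Divisor K F, (∀ P, Dy P = P.ord y) →
    ∀ Q ∈ good, Q.ord (R.red ⟨y, B_le y hy⟩) =
      ∑ P ∈ Dy.support.filter (fun P => rOf P = some Q), P.ord y

variable {R : RedData K F k Ft}

/-- a unit of the global unit ball. -/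
def IsU (Φ : FibreHyp R) (y : F) : Prop := y ≠ 0 ∧ y ∈ Φ.B ∧ y⁻¹ ∈ Φ.B

/-- the residue disc of the special place `Q`. -/
def disc (Φ : FibreHyp R) (Q : Place k Ft) : Set (Place K F) := {P | Φ.rOf P = some Q}

/-- functions of the global unit ball without pole on the residue disc of `Q`. -/
def Odisc (Φ : FibreHyp R) (Q : Place k Ft) : Set F :=
  {e | e ∈ Φ.B ∧ ∀ P ∈ disc Φ Q, e ∈ P.toValuationSubring}

/-- A chart point over the smooth special place `Q`. -/
structure ChartPt (Φ : FibreHyp R) (Q : Place k Ft) where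
  hQ : Q ∈ Φ.good
  P : Place K F
  hP : P ∈ disc Φ Q
  t : F
  ht : t ∈ Odisc Φ Q
  ht0 : ValueAt P t 0
  hred : Q.ord (R.red ⟨t, Φ.B_le t ht.1⟩) = 1
  hU : ∀ a ∈ R.A, IsU Φ (t - algebraMap K F a)

/-! ### the unit calculus -/

section Units

variable (Φ : FibreHyp R)

theorem disc_disjoint {Q Q' : Place k Ft} (h : Q ≠ Q') {P : Place K F} (hP : P ∈ disc Φ Q) :
    P ∉ disc Φ Q' := fun hP' => h (by
  have a : Φ.rOf P = some Q := hP
  have b : Φ.rOf P = some Q' := hP'
  exact Option.some_injective _ (a.symm.trans b))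

theorem isU_one : IsU Φ 1 := ⟨one_ne_zero, Φ.B.one_mem, by rw [inv_one]; exact Φ.B.one_mem⟩

theorem IsU.mul {Φ : FibreHyp R} {y y' : F} (h : IsU Φ y) (h' : IsU Φ y') : IsU Φ (y * y') :=
  ⟨mul_ne_zero h.1 h'.1, Φ.B.mul_mem h.2.1 h'.2.1, by rw [mul_inv]; exact Φ.B.mul_mem h.2.2 h'.2.2⟩

theorem IsU.inv {Φ : FibreHyp R} {y : F} (h : IsU Φ y) : IsU Φ y⁻¹ :=
  ⟨inv_ne_zero h.1, h.2.2, by rw [inv_inv]; exact h.2.1⟩

theorem IsU.ne_zero {Φ : FibreHyp R} {y : F} (h : IsU Φ y) : y ≠ 0 := h.1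

/-- a unit of `B` is a unit of the valuation ring `R.Rw`: its reduction is nonzero. -/
theorem IsU.red_ne_zero {Φ : FibreHyp R} {y : F} (h : IsU Φ y) :
    R.red ⟨y, Φ.B_le y h.2.1⟩ ≠ 0 := by
  intro h0
  have hmul : (⟨y, Φ.B_le y h.2.1⟩ : R.Rw) * ⟨y⁻¹, Φ.B_le _ h.2.2⟩ = 1 :=
    Subtype.ext (mul_inv_cancel₀ h.1)
  have := congrArg R.red hmul
  rw [map_mul, h0, zero_mul, map_one] at this
  exact one_ne_zero this.symm

/-- `1 + z` is a unit for `z` in the radical. -/
theorem isU_one_add {z : F} (hz : z ∈ Φ.rad) : IsU Φ (1 + z) := by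
  refine ⟨fun h0 => ?_, Φ.B.add_mem Φ.B.one_mem (Φ.rad_sub_B z hz), Φ.rad_unit z hz⟩
  have h1 : R.red ⟨1 + z, Φ.B_le _ (Φ.B.add_mem Φ.B.one_mem (Φ.rad_sub_B z hz))⟩ = 1 := by
    have : (⟨1 + z, Φ.B_le _ (Φ.B.add_mem Φ.B.one_mem (Φ.rad_sub_B z hz))⟩ : R.Rw)
        = 1 + ⟨z, Φ.B_le z (Φ.rad_sub_B z hz)⟩ := rfl
    rw [this, map_add, map_one, Φ.rad_red z hz, add_zero]
  have h2 : (⟨1 + z, Φ.B_le _ (Φ.B.add_mem Φ.B.one_mem (Φ.rad_sub_B z hz))⟩ : R.Rw) = 0 :=
    Subtype.ext h0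
  rw [h2, map_zero] at h1
  exact zero_ne_one h1

/-- a unit plus an element of the radical is a unit. -/
theorem IsU.add_rad {Φ : FibreHyp R} {y z : F} (h : IsU Φ y) (hz : z ∈ Φ.rad) : IsU Φ (y + z) := by
  have h1 : y + z = y * (1 + y⁻¹ * z) := by
    rw [mul_add, mul_one, ← mul_assoc, mul_inv_cancel₀ h.1, one_mul]
  rw [h1]
  exact h.mul (isU_one_add Φ (Φ.rad_mul _ h.2.2 z hz))

/-- a unit minus an element of the radical is a unit. -/
theorem IsU.sub_rad {Φ : FibreHyp R} {y z : F} (h : IsU Φ y) (hz : z ∈ Φ.rad) : IsU Φ (y - z) := by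
  have hneg : -z ∈ Φ.rad := by
    have := Φ.rad_mul (-1) (Φ.B.neg_mem Φ.B.one_mem) z hz
    rwa [neg_one_mul] at this
  rw [sub_eq_add_neg]
  exact h.add_rad hneg

/-- unit constants are units of `B`. -/
theorem isU_const {a : K} (ha : R.A.valuation a = 1) : IsU Φ (algebraMap K F a) := by
  have ha0 : a ≠ 0 := fun h => by rw [h, map_zero] at ha; exact zero_ne_one ha
  have haA : a ∈ R.A := (R.A.valuation_le_one_iff a).mp ha.le
  have hinvA : a⁻¹ ∈ R.A := (R.A.valuation_le_one_iff _).mp (by rw [map_inv₀, ha, inv_one])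
  refine ⟨fun h => ha0 ((map_eq_zero _).mp h), Φ.const_mem_B a haA, ?_⟩
  rw [← map_inv₀]
  exact Φ.const_mem_B _ hinvA

/-- the fibre formula in `IsU` form. -/
theorem ord_red_eq_sum {y : F} (h : IsU Φ y) {Dy : Divisor K F} (hDy : ∀ P, Dy P = P.ord y)
    {Q : Place k Ft} (hQ : Q ∈ Φ.good) :
    Q.ord (R.red ⟨y, Φ.B_le y h.2.1⟩) =
      ∑ P ∈ Dy.support.filter (fun P => Φ.rOf P = some Q), P.ord y :=
  Φ.fibre y h.2.1 h.2.2 Dy hDy Q hQ

end Units

end Fermat.Agent.GS.Frame.Local
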