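/-
GATE-S (S33) / FRAME², node [PLUG-SMOOTH], part 2 (helper68; helper92 board 5142 §5): the SMOOTH
instance of the abstract disc frame `DiscData` / `DiscFacts` of `GS/Frame/Vocab.lean` — VALIDATION
of the pin: all ten facts (F1)–(F10) are theorems of GATE-H over the smooth frame
`R : RedData K F k Ft`, `H : LSpaceHyp R g c`.

* `smoothDiscData H : DiscData K F k Ft (Place k Ft)` : `Sp := Ft`, `B := R.Rw`, `𝒬 := Place k Ft`,
  `disc := GH.disc H`, `IsParam Q t := ∃ ht, Q.ord (R.red ⟨t, ht⟩) = 1`,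
  `NS S := ∃ T : Finset _, ↑T = S ∧ finrank L(Σ_{Q ∈ T} Q) = 1`.
* `chartPtOfCPt`, `chartOfChart` / `cptOfChartPt`, `chartOfGH` : the dictionary between the
  vocabularies of `GS/Frame/Vocab.lean` and `GH/Vocab.lean`; `isCoord_iff`.
* `smoothDiscFacts H : DiscFacts (smoothDiscData H)`.
* `chartSupply_of_GH`, `addSpec_iff`… : the contracts of the two vocabularies correspond.
-/
import Mathlib
import Fermat.Agent.GS.Frame.Vocab
import Fermat.Agent.GH.Add.DiscCalcOfV
import Fermat.Agent.GH.Add.DivBook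
import Fermat.Agent.GH.Add.Sections
import Fermat.Agent.GH.L.Inj
import Fermat.Agent.GH.L.Semicont
import Fermat.Agent.GR.W.K2.AuxData
import Fermat.Agent.GR.W.K2.LatticeBasis

set_option autoImplicit false
set_option linter.unusedSectionVars false

noncomputable section

open AlgebraicCurve

namespace Fermat.Agent.GS.Frame.PlugSmooth

open Fermat.Agent.RRh45 Fermat.Agent.GJ.S37MinDiv Fermat.Agent.GJ.J1 Fermat.Agent.GJ.S37LSpace
  Fermat.Agent.GJ.S37ROfSurj Fermat.Agent.GH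

open scoped Classical

variable {K F k Ft : Type*} [Field K] [Field F] [Algebra K F] [Field k] [Field Ft] [Algebra k Ft]
variable {R : RedData K F k Ft} {g c : ℤ}

/-! ### the data -/

/-- the identity `↥R.Rw.toSubring →+* ↥R.Rw`. -/
def ballHom (R : RedData K F k Ft) : R.Rw.toSubring →+* R.Rw where
  toFun x := ⟨x.1, x.2⟩
  map_one' := rfl
  map_mul' _ _ := rfl
  map_zero' := rfl
  map_add' _ _ := rfl

@[simp] theorem ballHom_mk (x : F) (hx : x ∈ R.Rw.toSubring) :
    ballHom R ⟨x, hx⟩ = ⟨x, hx⟩ := rfl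

/-- non-speciality of a (finite) set of special places: `l(Σ_{Q ∈ S} Q) = 1`. -/
def NSsmooth (k Ft : Type*) [Field k] [Field Ft] [Algebra k Ft] (S : Set (Place k Ft)) : Prop :=
  ∃ T : Finset (Place k Ft), (T : Set (Place k Ft)) = S ∧
    Module.finrank k (riemannRochSpace (∑ Q ∈ T, Finsupp.single Q (1 : ℤ))) = 1

theorem nsSmooth_range_iff {n : ℕ} (Q : Fin n → Place k Ft) (hQ : Function.Injective Q) :
    NSsmooth k Ft (Set.range Q) ↔
      Module.finrank k (riemannRochSpace (∑ i, Finsupp.single (Q i) (1 : ℤ))) = 1 := by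
  have hsum : ∑ Q' ∈ Finset.univ.image Q, Finsupp.single Q' (1 : ℤ) =
      ∑ i, Finsupp.single (Q i) (1 : ℤ) :=
    Finset.sum_image fun i _ j _ h => hQ h
  constructor
  · rintro ⟨T, hT, h⟩
    have hTeq : T = Finset.univ.image Q := by
      apply Finset.coe_injective
      rw [hT, Finset.coe_image, Finset.coe_univ, Set.image_univ]
    rw [hTeq, hsum] at h
    exact h
  · intro h
    refine ⟨Finset.univ.image Q, ?_, ?_⟩
    · rw [Finset.coe_image, Finset.coe_univ, Set.image_univ]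
    · rw [hsum]; exact h

variable [FiniteResidues K F] [HasPrincipalDivisors K F] [Nonempty (Place K F)]
variable [FiniteResidues k Ft] [HasPrincipalDivisors k Ft] [Nonempty (Place k Ft)]
variable [Infinite k]

/-- **the smooth disc frame.** -/
def smoothDiscData (H : LSpaceHyp R g c) : DiscData K F k Ft (Place k Ft) where
  A := R.A
  res := R.res
  res_surjective := R.res_surjective
  res_eq_zero_iff := Disc.res_eq_zero_iff
  B := R.Rw.toSubring
  mem_A_iff := R.mem_A_iff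
  red := R.red.comp (ballHom R)
  red_algebraMap := fun a => R.red_algebraMap a
  disc := GH.disc H
  disc_disjoint := fun hQQ' _ hP => GH.Add.disc_disjoint H hQQ' hP
  IsParam := fun Q t => ∃ ht : t ∈ R.Rw, Q.ord (R.red ⟨t, ht⟩) = 1
  NS := NSsmooth k Ft
  g := g

variable (H : LSpaceHyp R g c)

@[simp] theorem smoothDiscData_A : (smoothDiscData H).A = R.A := rfl

@[simp] theorem smoothDiscData_B : (smoothDiscData H).B = R.Rw.toSubring := rfl

@[simp] theorem smoothDiscData_disc (Q : Place k Ft) : (smoothDiscData H).disc Q = GH.disc H Q :=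
  rfl

@[simp] theorem smoothDiscData_g : (smoothDiscData H).g = g := rfl

theorem smoothDiscData_red (x : F) (hx : x ∈ R.Rw) :
    (smoothDiscData H).red ⟨x, hx⟩ = R.red ⟨x, hx⟩ := rfl

theorem odisc_eq (Q : Place k Ft) : Frame.Odisc (smoothDiscData H) Q = GH.Odisc H Q := rfl

/-! ### the dictionary of chart points and charts -/

/-- a chart point of the smooth disc frame is a chart point of `GH/Vocab.lean`. -/
def chartPtOfCPt {Q : Place k Ft} (pt : CPt (smoothDiscData H) Q) : GH.ChartPt H Q where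
  P := pt.P
  hP := pt.hP
  t := pt.t
  ht := pt.ht
  ht0 := pt.ht0
  hred := by
    obtain ⟨_, h⟩ := pt.hpar
    exact h

/-- a chart point of `GH/Vocab.lean` is a chart point of the smooth disc frame. -/
def cptOfChartPt {Q : Place k Ft} (𝔭 : GH.ChartPt H Q) : CPt (smoothDiscData H) Q where
  P := 𝔭.P
  hP := 𝔭.hP
  t := 𝔭.t
  ht := 𝔭.ht
  ht0 := 𝔭.ht0
  hpar := ⟨𝔭.ht.1, 𝔭.hred⟩

/-- a chart of the smooth disc frame is a chart of `GH/Vocab.lean`. -/
def chartOfChart {n : ℕ} (𝔠 : Frame.Chart (smoothDiscData H) n) : GH.Chart H n where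
  Q := 𝔠.Q
  hQ := 𝔠.hQ
  pt := fun i => chartPtOfCPt H (𝔠.pt i)
  hns := (nsSmooth_range_iff 𝔠.Q 𝔠.hQ).mp 𝔠.hns

/-- a chart of `GH/Vocab.lean` is a chart of the smooth disc frame. -/
def chartOfGH {n : ℕ} (𝔠 : GH.Chart H n) : Frame.Chart (smoothDiscData H) n where
  Q := 𝔠.Q
  hQ := 𝔠.hQ
  pt := fun i => cptOfChartPt H (𝔠.pt i)
  hns := (nsSmooth_range_iff 𝔠.Q 𝔠.hQ).mpr 𝔠.hns

@[simp] theorem chartOfChart_D0 {n : ℕ} (𝔠 : Frame.Chart (smoothDiscData H) n) :
    (chartOfChart H 𝔠).D0 = 𝔠.D0 := rfl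

@[simp] theorem chartOfChart_Q {n : ℕ} (𝔠 : Frame.Chart (smoothDiscData H) n) :
    (chartOfChart H 𝔠).Q = 𝔠.Q := rfl

@[simp] theorem chartOfGH_D0 {n : ℕ} (𝔠 : GH.Chart H n) : (chartOfGH H 𝔠).D0 = 𝔠.D0 := rfl

@[simp] theorem chartOfGH_Q {n : ℕ} (𝔠 : GH.Chart H n) : (chartOfGH H 𝔠).Q = 𝔠.Q := rfl

theorem isCoord_chartOfChart_iff {n : ℕ} (𝔠 : Frame.Chart (smoothDiscData H) n) (ξ : Pic0 K F)
    (τ : Fin n → K) : GH.IsCoord (chartOfChart H 𝔠) ξ τ ↔ Frame.IsCoord 𝔠 ξ τ := Iff.rfl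

theorem isCoord_chartOfGH_iff {n : ℕ} (𝔠 : GH.Chart H n) (ξ : Pic0 K F) (τ : Fin n → K) :
    Frame.IsCoord (chartOfGH H 𝔠) ξ τ ↔ GH.IsCoord 𝔠 ξ τ := Iff.rfl

/-! ### the reduced spaces -/

theorem redSpace_eq (D : Divisor K F) :
    Frame.redSpace (smoothDiscData H) D = Fermat.Agent.GJ.S37LSpace.redSpace R D := by
  ext xt
  constructor
  · rintro ⟨x, hx, rfl⟩
    exact ⟨⟨x.1, x.2⟩, hx, rfl⟩
  · rintro ⟨x, hx, rfl⟩
    exact ⟨⟨x.1, x.2⟩, hx, rfl⟩

/-! ### the ten facts -/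

/-- **the facts (F1)–(F10) hold on the smooth frame.** -/
theorem smoothDiscFacts : DiscFacts (smoothDiscData H) where
  degF := H.degF
  sp_one_ne_zero := one_ne_zero
  exists_value := fun {Q e} he P hP => by
    have he' : e ∈ GH.Odisc H Q := he
    exact GH.Add.exists_value_mem_A he' hP
  param_lt_one := fun {Q} pt P hP a ha =>
    Disc.chartPt_valuation_lt_one (chartPtOfCPt H pt) hP ha
  taylor := fun {Q} pt {e} he m => by
    have he' : e ∈ GH.Odisc H Q := he
    exact GH.Add.taylor_eval (chartPtOfCPt H pt) m he'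
  disc_inj := fun {Q} pt a P P' hP hP' ha ha' =>
    GH.L.eq_of_valueAt_eq H (chartPtOfCPt H pt).ht (chartPtOfCPt H pt).hred hP hP' ha ha'
  ord_on_chart_disc := fun {Q} pt {h} hB hred hpole =>
    GH.Add.ord_on_chart_disc H (chartPtOfCPt H pt) hB hred hpole
  ord_eq_zero_off := fun {h} hB hred S hpole P hP => by
    have hRw : h ∈ R.Rw := hB
    have hred' : R.red ⟨h, hRw⟩ = 1 := hred
    have hne : R.red ⟨h, hRw⟩ ≠ 0 := by rw [hred']; exact one_ne_zero
    have hoff : ∀ P' ∈ GH.disc H (rOf H P), ∀ Q ∈ S, P' ∉ GH.disc H Q := by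
      intro P' hP' Q hQ hP'Q
      refine hP Q hQ ?_
      have a : rOf H P' = rOf H P := hP'
      have b : rOf H P' = Q := hP'Q
      show rOf H P = Q
      rw [← a, b]
    exact GH.Add.ord_eq_zero_of_red_unit H hRw hne (Q := rOf H P)
      (by rw [hred', Place.ord_one]) (fun P' hP' => hpole P' (hoff P' hP')) P rfl
  const_of_small := fun {ι} _ {Qx} hQx pt {n} 𝔤 hdisj {e} heB heL {X} hX {b} hval hb => by
    have heRw : e ∈ R.Rw := heB
    exact GH.AddSec.red_eq_algebraMap_of_values (H := H) hQx (fun i => chartPtOfCPt H (pt i))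
      (chartOfChart H 𝔤) hdisj (e := ⟨e, heRw⟩) heL hX hval hb
  finrank_redSpace := fun D hD => by
    rw [redSpace_eq]
    exact ⟨finite_redSpace H hD, H.orth D hD⟩
  riemann := fun D => GH.L.riemann_ineq H D
  finrank_eq_one := fun {n} Q hQ hns X hX => by
    refine Fermat.Agent.GR.W.K2.AuxData.finrank_eq_one_of_mapDomain H
      (Finset.sum_nonneg fun i _ => Finsupp.single_nonneg.mpr zero_le_one) ?_
    rw [Finsupp.mapDomain_finsetSum]
    have : ∀ i, Finsupp.mapDomain (rOf H) (Finsupp.single (X i) (1 : ℤ)) =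
        Finsupp.single (Q i) (1 : ℤ) := fun i => by
      rw [Finsupp.mapDomain_single]
      congr 1
      exact hX i
    rw [Finset.sum_congr rfl fun i _ => this i]
    exact (nsSmooth_range_iff Q hQ).mp hns

/-! ### the contracts -/

theorem chartSupply_of_GH {n : ℕ} (h : GH.ChartSupply H n) :
    Frame.ChartSupply (smoothDiscData H) n := fun S => by
  obtain ⟨𝔠, h𝔠⟩ := h S
  exact ⟨chartOfGH H 𝔠, h𝔠⟩

theorem chartSupply_to_GH {n : ℕ} (h : Frame.ChartSupply (smoothDiscData H) n) :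
    GH.ChartSupply H n := fun S => by
  obtain ⟨𝔠, h𝔠⟩ := h S
  exact ⟨chartOfChart H 𝔠, h𝔠⟩

/-- the `AddSpec` contract of the smooth disc frame gives the one of `GH/Vocab.lean`. -/
theorem addSpec_to_GH {n : ℕ} (h : Frame.AddSpec (smoothDiscData H) n) : GH.AddSpec H n :=
  fun 𝔞 𝔟 𝔠 hab hac hbc Z _ ξ η τ σ μ hτ hσ hμ j =>
    h (chartOfGH H 𝔞) (chartOfGH H 𝔟) (chartOfGH H 𝔠) hab hac hbc Z ξ η τ σ μ hτ hσ hμ j

/-- the `AddSpec` contract of `GH/Vocab.lean` gives the one of the smooth disc frame. -/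
theorem addSpec_of_GH {n : ℕ} (h : GH.AddSpec H n) : Frame.AddSpec (smoothDiscData H) n :=
  fun 𝔞 𝔟 𝔠 hab hac hbc Z _ ξ η τ σ μ hτ hσ hμ j =>
    h (chartOfChart H 𝔞) (chartOfChart H 𝔟) (chartOfChart H 𝔠) hab hac hbc Z ξ η τ σ μ hτ hσ hμ j

end Fermat.Agent.GS.Frame.PlugSmooth
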