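/-
GATE-S (S33) / FRAME², node [PLUG-SMOOTH], part 3 (helper68; helper92 board 5142 §5): the CONTRACTS
of `GS/Frame/Vocab.lean` hold on the smooth disc frame `smoothDiscData H` — validation of the
contract shapes (the TARGET of FRAME² is a theorem of GATE-H in the smooth instance).

* `coordUnique_smooth`, `coordSmall_smooth`, `coordExists_smooth` (`𝒦 := KerRed H`) from
  `GH/L/Final.coordSpec_main` (`IsCoord ⟹ KerRed`: `GH/Ord/Basic.IsCoord.mem_KerRed`);
* `coordInj_smooth` from `GH/L/Inj.isCoord_class_unique`;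
* `chartSupply_smooth` from `GH/L/Final.chartSupply_main`;
* `addSpec_smooth` from `GH/Add/DiscCalcOfV.addSpec_main`;
* `frame2_target_smooth` : the conjunction in the shape of the FRAME² target.
-/
import Mathlib
import Fermat.Agent.GS.Frame.PlugSmoothFacts
import Fermat.Agent.GH.L.Final
import Fermat.Agent.GH.Ord.Basic

set_option autoImplicit false
set_option linter.unusedSectionVars false

noncomputable section

open AlgebraicCurve

namespace Fermat.Agent.GS.Frame.PlugSmooth

open Fermat.Agent.RRh45 Fermat.Agent.GJ.S37MinDiv Fermat.Agent.GJ.J1 Fermat.Agent.GJ.S37LSpace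
  Fermat.Agent.GJ.S37ROfSurj Fermat.Agent.GH

open scoped Classical

variable {K F k Ft : Type*} [Field K] [Field F] [Algebra K F] [Field k] [Field Ft] [Algebra k Ft]
variable {R : RedData K F k Ft} {g c : ℤ}
variable [FiniteResidues K F] [HasPrincipalDivisors K F] [Nonempty (Place K F)]
variable [FiniteResidues k Ft] [HasPrincipalDivisors k Ft] [Nonempty (Place k Ft)]
variable [Infinite k]

variable (H : LSpaceHyp R g c) {n : ℕ}

theorem coordUnique_smooth (hn : (n : ℤ) = g) : Frame.CoordUnique (smoothDiscData H) n :=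
  fun 𝔠 ξ τ τ' h h' => by
    have h1 : GH.IsCoord (chartOfChart H 𝔠) ξ τ := h
    have h2 : GH.IsCoord (chartOfChart H 𝔠) ξ τ' := h'
    exact (GH.L.coordSpec_main H hn (chartOfChart H 𝔠) ξ h1.mem_KerRed).2.1 τ τ' h1 h2

theorem coordSmall_smooth (hn : (n : ℤ) = g) : Frame.CoordSmall (smoothDiscData H) n :=
  fun 𝔠 ξ τ h i => by
    have h1 : GH.IsCoord (chartOfChart H 𝔠) ξ τ := h
    exact (GH.L.coordSpec_main H hn (chartOfChart H 𝔠) ξ h1.mem_KerRed).2.2 τ h1 i

theorem coordInj_smooth : Frame.CoordInj (smoothDiscData H) n :=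
  fun 𝔠 ξ ξ' τ h h' => by
    have h1 : GH.IsCoord (chartOfChart H 𝔠) ξ τ := h
    have h2 : GH.IsCoord (chartOfChart H 𝔠) ξ' τ := h'
    exact GH.L.isCoord_class_unique H (chartOfChart H 𝔠) h1 h2

theorem coordExists_smooth (hn : (n : ℤ) = g) :
    Frame.CoordExists (smoothDiscData H) n (KerRed H) :=
  fun 𝔠 ξ hξ => by
    obtain ⟨τ, hτ⟩ := (GH.L.coordSpec_main H hn (chartOfChart H 𝔠) ξ hξ).1
    exact ⟨τ, hτ⟩

theorem chartSupply_smooth (hn : (n : ℤ) ≤ g) : Frame.ChartSupply (smoothDiscData H) n :=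
  chartSupply_of_GH H (GH.L.chartSupply_main H hn)

theorem addSpec_smooth (hn : (n : ℤ) = g)
    (harch : ∀ x y : K, R.A.valuation x < 1 → y ≠ 0 →
      ∃ m : ℕ, R.A.valuation x ^ m ≤ R.A.valuation y) : Frame.AddSpec (smoothDiscData H) n :=
  addSpec_of_GH H (GH.Add.addSpec_main H hn harch)

/-- **the FRAME² target holds on the smooth frame.** -/
theorem frame2_target_smooth (_hF : DiscFacts (smoothDiscData H))
    (hn : (n : ℤ) = (smoothDiscData H).g)
    (harch : ∀ x y : K, (smoothDiscData H).A.valuation x < 1 → y ≠ 0 →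
      ∃ m : ℕ, (smoothDiscData H).A.valuation x ^ m ≤ (smoothDiscData H).A.valuation y)
    (_hsup : Frame.ChartSupply (smoothDiscData H) n) :
    Frame.AddSpec (smoothDiscData H) n ∧ Frame.CoordUnique (smoothDiscData H) n ∧
      Frame.CoordSmall (smoothDiscData H) n ∧ Frame.CoordInj (smoothDiscData H) n :=
  ⟨addSpec_smooth H hn harch, coordUnique_smooth H hn, coordSmall_smooth H hn, coordInj_smooth H⟩

end Fermat.Agent.GS.Frame.PlugSmooth
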