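/-
GATE-S (S33) / FRAME², node [PLUG-SMOOTH], part 1 (helper68; helper92 board 5142 §5): the SMOOTH
instance of the local frame `FibreHyp R` of `GS/Frame/Local.lean`.

For `R : RedData K F k Ft` and `H : LSpaceHyp R g c` (the frame of `GH/Vocab.lean`):
`B := R.Rw`, `rad := 𝔪_{Rw}`, `good := univ`, `rOf := some ∘ rOf H`, and the fibre formula (FF2) is
`GJ/S37/ROfSurj.ord_red_eq_sum`.

* `smoothFibreHyp H : FibreHyp R` with the `@[simp]` unfolding lemmas;
* `mem_disc_iff`, `odisc_eq` : the discs / disc-regular functions of the local frame are those of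
  `GH/Vocab.lean`;
* `isU_of_red_ne_zero` : the units of `B` are the elements of `Rw` with nonzero reduction;
* `chartPtOfGH` : a `GH.ChartPt H Q` is a `Local.ChartPt (smoothFibreHyp H) Q` (`hU` automatic);
  `chartPtToGH` : the converse.
-/
import Mathlib
import Fermat.Agent.GS.Frame.Local
import Fermat.Agent.GJ.S37.ROfSurj
import Fermat.Agent.GR.W.K2.LatticeBasis

set_option autoImplicit false
set_option linter.unusedSectionVars false

noncomputable section

open AlgebraicCurve

namespace Fermat.Agent.GS.Frame.PlugSmoothLocal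

open Fermat.Agent.RRh45 Fermat.Agent.GJ.S37MinDiv Fermat.Agent.GJ.J1 Fermat.Agent.GJ.S37LSpace
  Fermat.Agent.GJ.S37ROfSurj Fermat.Agent.GH Fermat.Agent.GS.Frame.Local
  Fermat.Agent.GR.W.K2.LatticeBasis

open scoped Classical

variable {K F k Ft : Type*} [Field K] [Field F] [Algebra K F] [Field k] [Field Ft] [Algebra k Ft]
variable {R : RedData K F k Ft} {g c : ℤ}

/-! ### the radical of the Gauss ring -/

/-- the radical of the Gauss valuation ring, as a subset of `F`. -/
def radRw (R : RedData K F k Ft) : Set F := {z | R.Rw.valuation z < 1}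

theorem radRw_sub (z : F) (hz : z ∈ radRw R) : z ∈ R.Rw :=
  (R.Rw.valuation_le_one_iff z).mp (le_of_lt hz)

theorem radRw_red (z : F) (hz : z ∈ radRw R) : R.red ⟨z, radRw_sub z hz⟩ = 0 := by
  rw [R.red_eq_zero_iff, ValuationSubring.valuation_lt_one_iff]
  exact hz

theorem radRw_add (z : F) (hz : z ∈ radRw R) (z' : F) (hz' : z' ∈ radRw R) : z + z' ∈ radRw R := by
  have h1 : R.Rw.valuation z < 1 := hz
  have h2 : R.Rw.valuation z' < 1 := hz'
  show R.Rw.valuation (z + z') < 1
  exact Valuation.map_add_lt _ h1 h2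

theorem radRw_mul (b : F) (hb : b ∈ R.Rw) (z : F) (hz : z ∈ radRw R) : b * z ∈ radRw R := by
  show R.Rw.valuation (b * z) < 1
  rw [map_mul]
  have hb1 : R.Rw.valuation b ≤ 1 := (R.Rw.valuation_le_one_iff b).mpr hb
  calc R.Rw.valuation b * R.Rw.valuation z ≤ 1 * R.Rw.valuation z := by gcongr
    _ = R.Rw.valuation z := one_mul _
    _ < 1 := hz

theorem radRw_const (a : K) (ha : R.A.valuation a < 1) : algebraMap K F a ∈ radRw R := by
  show R.Rw.valuation (algebraMap K F a) < 1
  rcases eq_or_ne a 0 with rfl | ha0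
  · rw [map_zero, map_zero]; exact zero_lt_one
  have haF : algebraMap K F a ≠ 0 := (map_ne_zero_iff _ (algebraMap K F).injective).mpr ha0
  rw [valuation_lt_one_iff_inv_notMem _ haF, ← map_inv₀, ← R.mem_A_iff,
    ← valuation_lt_one_iff_inv_notMem _ ha0]
  exact ha

theorem radRw_unit (z : F) (hz : z ∈ radRw R) : (1 + z)⁻¹ ∈ R.Rw := by
  rw [← R.Rw.valuation_le_one_iff, map_inv₀]
  have h1 : R.Rw.valuation (1 + z) = 1 := by
    have := Valuation.map_add_eq_of_lt_left R.Rw.valuation
      (show R.Rw.valuation z < R.Rw.valuation 1 by rw [map_one]; exact hz)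
    rw [this, map_one]
  rw [h1, inv_one]

variable [FiniteResidues K F] [HasPrincipalDivisors K F] [Nonempty (Place K F)]
variable [FiniteResidues k Ft] [HasPrincipalDivisors k Ft] [Nonempty (Place k Ft)]
variable [Infinite k]

/-- **the smooth local frame.** -/
def smoothFibreHyp (H : LSpaceHyp R g c) : FibreHyp R where
  degF := H.degF
  B := R.Rw.toSubring
  B_le := fun _ hx => hx
  const_mem_B := fun a ha => (R.mem_A_iff a).1 ha
  rad := radRw R
  rad_sub_B := radRw_sub
  rad_red := radRw_red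
  rad_add := radRw_add
  rad_mul := radRw_mul
  rad_const := radRw_const
  rad_unit := radRw_unit
  good := Set.univ
  rOf := fun P => some (rOf H P)
  fibre := by
    intro y hy hyinv Dy hDy Q _
    rcases eq_or_ne y 0 with rfl | hy0
    · have hD0 : Dy = 0 := by
        ext P; rw [hDy P, Place.ord_zero]; rfl
      have h0 : (⟨(0 : F), hy⟩ : R.Rw) = 0 := rfl
      rw [hD0, h0, map_zero, Place.ord_zero]
      simp
    · have hred : R.red ⟨y, hy⟩ ≠ 0 := by
        intro h0
        have hmul : (⟨y, hy⟩ : R.Rw) * ⟨y⁻¹, hyinv⟩ = 1 := Subtype.ext (mul_inv_cancel₀ hy0)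
        have := congrArg R.red hmul
        rw [map_mul, h0, zero_mul, map_one] at this
        exact one_ne_zero this.symm
      have h := ord_red_eq_sum H (y := ⟨y, hy⟩) hred hDy Q
      rw [h]
      refine Finset.sum_congr ?_ fun _ _ => rfl
      ext P
      simp only [Finset.mem_filter, Option.some.injEq]

variable (H : LSpaceHyp R g c)

@[simp] theorem smoothFibreHyp_B : (smoothFibreHyp H).B = R.Rw.toSubring := rfl

@[simp] theorem smoothFibreHyp_rad : (smoothFibreHyp H).rad = radRw R := rfl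

@[simp] theorem smoothFibreHyp_good : (smoothFibreHyp H).good = Set.univ := rfl

@[simp] theorem smoothFibreHyp_rOf (P : Place K F) :
    (smoothFibreHyp H).rOf P = some (rOf H P) := rfl

/-- the discs of the smooth local frame are the discs of `GH/Vocab.lean`. -/
theorem mem_disc_iff (Q : Place k Ft) (P : Place K F) :
    P ∈ Local.disc (smoothFibreHyp H) Q ↔ P ∈ GH.disc H Q := by
  show (some (rOf H P) = some Q) ↔ rOf H P = Q
  exact Option.some_inj

theorem disc_eq (Q : Place k Ft) : Local.disc (smoothFibreHyp H) Q = GH.disc H Q :=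
  Set.ext fun P => mem_disc_iff H Q P

/-- the disc-regular integral functions of the smooth local frame are those of `GH/Vocab.lean`. -/
theorem odisc_eq (Q : Place k Ft) : Local.Odisc (smoothFibreHyp H) Q = GH.Odisc H Q := by
  ext e
  show (e ∈ R.Rw.toSubring ∧ ∀ P ∈ Local.disc (smoothFibreHyp H) Q, e ∈ P.toValuationSubring) ↔
    (e ∈ R.Rw ∧ ∀ P ∈ GH.disc H Q, e ∈ P.toValuationSubring)
  rw [disc_eq]
  exact Iff.rfl

/-- the units of the smooth ball are the elements of `Rw` with nonzero reduction. -/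
theorem isU_of_red_ne_zero {y : R.Rw} (hy : R.red y ≠ 0) : IsU (smoothFibreHyp H) (y : F) := by
  have hy0 : (y : F) ≠ 0 := fun h => hy (by rw [show y = 0 from Subtype.ext h, map_zero])
  refine ⟨hy0, y.2, ?_⟩
  show (y : F)⁻¹ ∈ R.Rw
  by_contra hcon
  have h1 : R.Rw.valuation (y : F) < 1 := (valuation_lt_one_iff_inv_notMem _ hy0).mpr hcon
  exact hy ((R.red_eq_zero_iff y).mpr ((ValuationSubring.valuation_lt_one_iff _ _).mpr h1))

/-- a chart point of `GH/Vocab.lean` is a chart point of the smooth local frame. -/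
def chartPtOfGH {Q : Place k Ft} (𝔭 : GH.ChartPt H Q) : Local.ChartPt (smoothFibreHyp H) Q where
  hQ := Set.mem_univ Q
  P := 𝔭.P
  hP := (mem_disc_iff H Q 𝔭.P).mpr 𝔭.hP
  t := 𝔭.t
  ht := by rw [odisc_eq]; exact 𝔭.ht
  ht0 := 𝔭.ht0
  hred := 𝔭.hred
  hU := by
    intro a ha
    have hmem : 𝔭.t - algebraMap K F a ∈ R.Rw :=
      R.Rw.sub_mem 𝔭.ht.1 ((R.mem_A_iff a).1 ha)
    refine isU_of_red_ne_zero H (y := ⟨𝔭.t - algebraMap K F a, hmem⟩) ?_
    intro h0
    have h1 : R.red ⟨𝔭.t, 𝔭.ht.1⟩ = algebraMap k Ft (R.res ⟨a, ha⟩) := by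
      have e : (⟨𝔭.t - algebraMap K F a, hmem⟩ : R.Rw) =
          ⟨𝔭.t, 𝔭.ht.1⟩ - ⟨algebraMap K F a, (R.mem_A_iff a).1 ha⟩ := rfl
      rw [e, map_sub, sub_eq_zero] at h0
      rw [h0]
      exact R.red_algebraMap ⟨a, ha⟩
    have h2 := 𝔭.hred
    rw [h1] at h2
    rcases eq_or_ne (R.res ⟨a, ha⟩) 0 with h3 | h3
    · rw [h3, map_zero, Place.ord_zero] at h2
      exact zero_ne_one h2
    · rw [Fermat.Agent.S24.PlaceB.ord_algebraMap Q h3] at h2
      exact zero_ne_one h2

/-- a chart point of the smooth local frame is a chart point of `GH/Vocab.lean`. -/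
def chartPtToGH {Q : Place k Ft} (𝔭 : Local.ChartPt (smoothFibreHyp H) Q) : GH.ChartPt H Q where
  P := 𝔭.P
  hP := (mem_disc_iff H Q 𝔭.P).mp 𝔭.hP
  t := 𝔭.t
  ht := by rw [← odisc_eq]; exact 𝔭.ht
  ht0 := 𝔭.ht0
  hred := 𝔭.hred

@[simp] theorem chartPtToGH_chartPtOfGH {Q : Place k Ft} (𝔭 : GH.ChartPt H Q) :
    chartPtToGH H (chartPtOfGH H 𝔭) = 𝔭 := rfl

end Fermat.Agent.GS.Frame.PlugSmoothLocal
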