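/-
GATE-S (S33) / FRAME², node [PLUG-SMOOTH], part 4 (helper68): REGRESSION TEST of the generic layer —
helper33's `GS/Frame/Gen/Main.frame_target` applied to the smooth instance
`smoothDiscData H` / `smoothDiscFacts H` re-proves the contracts of GATE-H (`GH.AddSpec H n`, and
uniqueness / smallness / injectivity of coordinates) WITHOUT `GH/Add/Step`, `GH/Add/Main`,
`GH/L/Coord`: the generic layer of FRAME² is a genuine generalisation of GATE-H.
-/
import Mathlib
import Fermat.Agent.GS.Frame.PlugSmoothFacts
import Fermat.Agent.GS.Frame.Gen.Main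
import Fermat.Agent.GH.L.Final

set_option autoImplicit false
set_option linter.unusedSectionVars false

noncomputable section

open AlgebraicCurve

namespace Fermat.Agent.GS.Frame.PlugSmooth

open Fermat.Agent.RRh45 Fermat.Agent.GJ.S37MinDiv Fermat.Agent.GJ.J1 Fermat.Agent.GJ.S37LSpace
  Fermat.Agent.GJ.S37ROfSurj Fermat.Agent.GH

open scoped Classical

variable {K F k Ft : Type*} [Field K] [Field F] [Algebra K F] [Field k] [Field Ft] [Algebra k Ft]
variable {R : RedData K F k Ft} {g c : ℤ}
variable [FiniteResidues K F] [HasPrincipalDivisors K F] [Nonempty (Place K F)]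
variable [FiniteResidues k Ft] [HasPrincipalDivisors k Ft] [Nonempty (Place k Ft)]
variable [Infinite k]

variable (H : LSpaceHyp R g c) {n : ℕ}

/-- the four contracts on the smooth frame, THROUGH the generic layer of FRAME². -/
theorem frame_target_via_generic (hn : (n : ℤ) = g)
    (harch : ∀ x y : K, R.A.valuation x < 1 → y ≠ 0 →
      ∃ m : ℕ, R.A.valuation x ^ m ≤ R.A.valuation y) :
    Frame.AddSpec (smoothDiscData H) n ∧ Frame.CoordUnique (smoothDiscData H) n ∧
      Frame.CoordSmall (smoothDiscData H) n ∧ Frame.CoordInj (smoothDiscData H) n :=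
  Frame.Asm.frame_target (smoothDiscFacts H) hn harch
    (chartSupply_of_GH H (GH.L.chartSupply_main H hn.le))

/-- **`GH.AddSpec` re-proved through the generic layer of FRAME².** -/
theorem addSpec_GH_via_generic (hn : (n : ℤ) = g)
    (harch : ∀ x y : K, R.A.valuation x < 1 → y ≠ 0 →
      ∃ m : ℕ, R.A.valuation x ^ m ≤ R.A.valuation y) : GH.AddSpec H n :=
  addSpec_to_GH H (frame_target_via_generic H hn harch).1

end Fermat.Agent.GS.Frame.PlugSmooth
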