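/-
GATE-F / FRAME², node [PLUG-SMOOTH] addendum (helper92): the contract `ParamSurj`
(`GS/Frame/Gen/ParamSurj`) on the SMOOTH disc frame `smoothDiscData H` of helper68, from
`GH/Disc/Values.param_existsUnique`; and on the abstract NODAL disc frame `nodalData H hFF`.

* `paramSurj_smooth H`      : `ParamSurj (smoothDiscData H)`;
* `paramSurj_smooth_unique` : the `∃!` form;
* `exists_isCoord_smooth`   : every small `τ` is the coordinate vector of a class in any chart of
                              the GATE-H frame (`GH.IsCoord`);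
* `paramSurj_nodal H hFF`   : `ParamSurj (DiscFacts2.nodalData H hFF)`.
-/
import Mathlib
import Fermat.Agent.GS.Frame.Gen.ParamSurj
import Fermat.Agent.GS.Frame.Glue.ParamSurj
import Fermat.Agent.GS.Frame.PlugSmoothFacts
import Fermat.Agent.GS.Nodal.DiscFacts2

set_option autoImplicit false
set_option linter.unusedSectionVars false

noncomputable section

open AlgebraicCurve

namespace Fermat.Agent.GS.Frame.PlugSmooth

open Fermat.Agent.RRh45 Fermat.Agent.GJ.S37MinDiv Fermat.Agent.GJ.J1 Fermat.Agent.GJ.S37LSpace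
  Fermat.Agent.GJ.S37ROfSurj Fermat.Agent.GH Fermat.Agent.GS.Frame

open scoped Classical

variable {K F k Ft : Type*} [Field K] [Field F] [Algebra K F] [Field k] [Field Ft] [Algebra k Ft]
variable {R : RedData K F k Ft} {g c : ℤ}
variable [FiniteResidues K F] [HasPrincipalDivisors K F] [Nonempty (Place K F)]
variable [FiniteResidues k Ft] [HasPrincipalDivisors k Ft] [Nonempty (Place k Ft)]
variable [Infinite k]
variable (H : LSpaceHyp R g c)

/-- the `∃!` form of `ParamSurj` on the smooth disc frame. -/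
theorem paramSurj_smooth_unique {Q : Place k Ft} (pt : CPt (smoothDiscData H) Q) {a : K}
    (ha : R.A.valuation a < 1) :
    ∃! X : Place K F, X ∈ GH.disc H Q ∧ ValueAt X pt.t a :=
  Fermat.Agent.GH.Disc.param_existsUnique (chartPtOfCPt H pt).ht (chartPtOfCPt H pt).hred ha

/-- **`ParamSurj` on the smooth disc frame.** -/
theorem paramSurj_smooth : ParamSurj (smoothDiscData H) := fun pt a ha => by
  obtain ⟨X, ⟨hX, hv⟩, -⟩ := paramSurj_smooth_unique H pt ha
  exact ⟨X, hX, hv⟩

/-- every small `τ` is the coordinate vector of a class, in any chart of the GATE-H frame. -/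
theorem exists_isCoord_smooth {n : ℕ} (𝔠 : GH.Chart H n) (τ : Fin n → K)
    (hτ : ∀ i, R.A.valuation (τ i) < 1) : ∃ ξ : Pic0 K F, GH.IsCoord 𝔠 ξ τ := by
  obtain ⟨ξ, hξ⟩ := exists_isCoord_of_small (smoothDiscFacts H).degF (paramSurj_smooth H)
    (chartOfGH H 𝔠) τ hτ
  exact ⟨ξ, (isCoord_chartOfGH_iff H 𝔠 ξ τ).mp hξ⟩

end Fermat.Agent.GS.Frame.PlugSmooth

namespace Fermat.Agent.GS.Frame.ParamSurjNodal

open Fermat.Agent.GS.Nodal.DiscFacts2
open Fermat.Agent.RRh45 Fermat.Agent.GJ.S37MinDiv Fermat.Agent.GJ.J1 Fermat.Agent.GK.MultiVal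
open Fermat.Agent.GS.Nodal.LSR2 Fermat.Agent.GS.Nodal.FibreHyp2 Fermat.Agent.GS.Nodal.ROfSurj2
open Fermat.Agent.GS.Frame Fermat.Agent.GS.Frame.Glue

variable {K F k Ft1 Ft2 : Type*} [Field K] [Field F] [Algebra K F] [Field k]
  [Field Ft1] [Algebra k Ft1] [Field Ft2] [Algebra k Ft2]
variable {R1 : RedData K F k Ft1} {R2 : RedData K F k Ft2} {hc : RedCompat R1 R2}
variable {ι : Type*} {P : ι → Place k Ft1} {Q : ι → Place k Ft2}
variable {C : Divisor K F} {C₁ : Divisor k Ft1} {C₂ : Divisor k Ft2} {g c : ℤ} {n₀ : ℕ}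
variable [FiniteResidues K F] [HasPrincipalDivisors K F] [Nonempty (Place K F)]
variable [FiniteResidues k Ft1] [HasPrincipalDivisors k Ft1] [Nonempty (Place k Ft1)]
variable [FiniteResidues k Ft2] [HasPrincipalDivisors k Ft2] [Nonempty (Place k Ft2)]
variable [Infinite k]
variable {S1 : Set (Place k Ft1)} {S2 : Set (Place k Ft2)}
variable (H : NodalHyp hc P Q C C₁ C₂ g c n₀) (hFF : FF2 R1 R2 (disc1 H) (disc2 H) S1 S2)

/-- **`ParamSurj` on the abstract nodal disc frame.** -/
theorem paramSurj_nodal : ParamSurj (nodalData H hFF) :=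
  paramSurj_glue

/-- every small `τ` is the coordinate vector of a class, in any chart of the nodal frame. -/
theorem exists_isCoord_nodal {n : ℕ} (𝔠 : Chart (nodalData H hFF) n) (τ : Fin n → K)
    (hτ : ∀ i, R1.A.valuation (τ i) < 1) : ∃ ξ : Pic0 K F, IsCoord 𝔠 ξ τ :=
  exists_isCoord_of_small H.degF (paramSurj_nodal H hFF) 𝔠 τ hτ

end Fermat.Agent.GS.Frame.ParamSurjNodal
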